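import Fermat.Agent.S59.TW.Aut.H779.FreeGen
import Fermat.Agent.S59.TW.Aut.H31.NonEis
import Fermat.Agent.S59.TW.Aut.H186.AuxPrimePkg
import Fermat.Agent.S59.Arch.WilesLevel

/-!
# S59 / cell TW / AUT layer 3: leaf FREE (helper779)

`freeQ_h779 : Fermat.Agent.S59.TW.Aut.FreeQStatement` (VERBATIM), for every odd `p`:

* `5 ≤ p`: `MFree.free` with (Ell) from the torsion of `SL(2,ℤ)`;
* `p = 3`: (Ell) can fail (`Γ₀(M_Q)` may contain elements of order `3` outside `K_Q`); the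
  auxiliary prime `r ≡ 2 mod 3` with `θ(T_r) ≠ 0` (`H186.exists_aux3_tset_h186`) and the control
  at the auxiliary level `Γ₀(M_Q) ∩ Γ₀(r)` (`MFree.H779.heckeKer_mem_augSub`) replace it.

The non-Eisenstein prime `ℓ` is `H31.exists_nonEis_mem_TsetOf`.
-/

set_option autoImplicit false

open Polynomial IsLocalRing CongruenceSubgroup
open scoped MatrixGroups

namespace Fermat.Agent.S59.TW.Aut.H779

open Fermat.Agent.S59.Arch Fermat.Agent.S59.TW.H959 Fermat.Agent.S59.TW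
open Fermat.Agent.S59.TW.H653 Fermat.Agent.S59.TW.Aut Fermat.Agent.S59.MFree
open Fermat.Agent.S59.TW.Aut.H762

/-- **FREE**, verbatim. -/
theorem freeQ_h779 : FreeQStatement := by
  intro p _ 𝒪 _ _ _ _ _ _ ρbar Smin h t _ _ P₀ n r qv hq _ PQ res _ α _ V hV
  classical
  have hp : p.Prime := Fact.out
  have hN₀ : wilesLevel p t Smin Smin ≠ 0 := wilesLevel_ne_zero hp h.hSmin h.hSmin
  have hprime : ∀ j, (qv j).Prime := fun j => (hq.2.1 j).1
  have hinj : Function.Injective qv := hq.1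
  have hM : bLevel (wilesLevel p t Smin Smin) qv ≠ 0 :=
    Nat.mul_ne_zero hN₀ (Finset.prod_ne_zero_iff.mpr fun j _ => (hprime j).ne_zero)
  obtain ⟨ℓ, c, hmem, hℓ, hℓS', -, -, hu⟩ :=
    H31.exists_nonEis_mem_TsetOf h PQ 1 one_pos
      (bLevel (wilesLevel p t Smin Smin) qv).primeFactors
  have hℓM : ¬ ℓ ∣ bLevel (wilesLevel p t Smin Smin) qv :=
    fun hd => hℓS' (Nat.mem_primeFactors.mpr ⟨hℓ, hd, hM⟩)
  have hp𝒪 : ¬ IsUnit (p : 𝒪) := (mem_maximalIdeal _).mp h.hp𝒪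
  have hcase : 5 ≤ p ∨ (p = 3 ∧ ∃ (r' : ℕ) (c' : 𝒪), r'.Prime ∧
      ¬ r' ∣ bLevel (wilesLevel p t Smin Smin) qv ∧ r' % 3 = 2 ∧
      (r', c') ∈ TsetOf PQ ∧ IsUnit c') := by
    by_cases hp3 : p = 3
    · right
      refine ⟨hp3, ?_⟩
      obtain ⟨r', c', hmem', hr', -, -, hr'S', hr'3, hc'⟩ :=
        H186.exists_aux3_tset_h186 hp3 h PQ
          (bLevel (wilesLevel p t Smin Smin) qv).primeFactors
      exact ⟨r', c', hr', fun hd => hr'S' (Nat.mem_primeFactors.mpr ⟨hr', hd, hM⟩), hr'3,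
        hmem', hc'⟩
    · left
      have h2 := h.hp2
      have h2le := hp.two_le
      by_contra hlt
      have hp4 : p = 4 := by omega
      rw [hp4] at hp
      exact absurd hp (by decide)
  obtain ⟨d, hd⟩ := free_of_isLocPart_h779 (wilesLevel p t Smin Smin) qv hN₀ hinj hprime hp𝒪
    hV hℓ hℓM hmem hu hcase
  intro g hg
  obtain ⟨b, hb⟩ := hd (∀ j : Fin r, Fin (p ^ padicValNat p (qv j - 1)))
    (fun e j => g j ^ (e j : ℕ)) (epsIdx_bijective p qv hprime g hg)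
  exact ⟨d, b, hb⟩

end Fermat.Agent.S59.TW.Aut.H779
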