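import Fermat.Agent.S59.MFree.H779.FreeKer
import Fermat.Agent.S59.TW.Aut.H762.Cor
import Fermat.Agent.S59.TW.Aut.H31.LocBij
import Fermat.Agent.S59.TW.H653.Bridge587

/-!
# S59 / cell TW / AUT layer 3, leaf FREE, generic form (helper779)

`free_of_isLocPart_h779`: `N₀ ≠ 0`, `qv : Fin r → ℕ` distinct primes, `K_Q = KQ p N₀ qv`,
`V` a localisation of `X_{K_Q}(𝒪)` (`Aut.IsLocPart`, ANY `Tset`, `Uset`), a non-Eisenstein pair
`(ℓ, c) ∈ Tset` (`ℓ ∤ M_Q`, `c - (ℓ + 1)` a unit), and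

* either `5 ≤ p`,
* or `p = 3` and an auxiliary pair `(r', c') ∈ Tset`, `r' ∤ M_Q`, `r' ≡ 2 mod 3`, `c'` a unit.

Then `V` is free over `𝒪[Δ_Q]`: there is `d` such that for all primitive roots `g_j`, `V` has an
`𝒪`-basis `⟨g^e⟩ b_i` (the conclusion of `Aut.FreeAt`).

Proof: `MFree.H587.free_heckeKer` (`5 ≤ p`) or `MFree.H779.freeAux3` (`p = 3`; hypothesis (Ell)
of `MFree.free` can fail, it is replaced by the auxiliary level `Γ₀(M_Q) ∩ Γ₀(r')`) at
`κ = Aut.kappa`, `e` = the projector of `V`, `t = T_ℓ`.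
-/

set_option autoImplicit false

open Polynomial IsLocalRing CongruenceSubgroup
open scoped MatrixGroups

namespace Fermat.Agent.S59.TW.Aut.H779

open Fermat.Agent.S59.Arch Fermat.Agent.S59.TW.H959 Fermat.Agent.S59.TW
open Fermat.Agent.S59.TW.H653 Fermat.Agent.S59.TW.Aut Fermat.Agent.S59.MFree
open Fermat.Agent.S59.TW.Aut.H762

section LinAlg

variable {𝒪 : Type} [CommRing 𝒪] {X : Type} [AddCommGroup X] [Module 𝒪 X]
  {D E : Type} [Fintype E]

/-- Unique coefficients with respect to a linearly independent family indexed by `D × Fin n`,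
re-indexed along a bijection `ε : E → D`. -/
theorem existsUnique_coeff_h779 {n : ℕ} (F : D × Fin n → X)
    (hli : LinearIndependent 𝒪 F) (ε : E → D) (hε : Function.Bijective ε) (y : X)
    (hy : y ∈ Submodule.span 𝒪 (Set.range F)) :
    ∃! c : Fin n → E → 𝒪, y = ∑ i, ∑ e, c i e • F (ε e, i) := by
  classical
  let φ : Fin n × E → D × Fin n := fun z => (ε z.2, z.1)
  have hφ : Function.Bijective φ := by
    constructor
    · rintro ⟨i, e⟩ ⟨i', e'⟩ h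
      have h1 : ε e = ε e' := congrArg Prod.fst h
      have h2 : i = i' := congrArg Prod.snd h
      rw [hε.1 h1, h2]
    · rintro ⟨d, i⟩
      obtain ⟨e, rfl⟩ := hε.2 d
      exact ⟨(i, e), rfl⟩
  have hG : LinearIndependent 𝒪 (F ∘ φ) := hli.comp φ hφ.1
  have hrange : Set.range (F ∘ φ) = Set.range F := by
    rw [Set.range_comp, hφ.2.range_eq, Set.image_univ]
  have hsum : ∀ c : Fin n → E → 𝒪,
      ∑ i, ∑ e, c i e • F (ε e, i) = ∑ z : Fin n × E, c z.1 z.2 • (F ∘ φ) z := by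
    intro c
    rw [Fintype.sum_prod_type]
    rfl
  rw [← hrange] at hy
  obtain ⟨c₀, hc₀⟩ := (Submodule.mem_span_range_iff_exists_fun 𝒪).mp hy
  refine ⟨fun i e => c₀ (i, e), ?_, ?_⟩
  · show y = ∑ i, ∑ e, c₀ (i, e) • F (ε e, i)
    rw [hsum (fun i e => c₀ (i, e)), ← hc₀]
  · intro c hc
    rw [hsum c, ← hc₀] at hc
    have hzero : ∑ z : Fin n × E, (c z.1 z.2 - c₀ z) • (F ∘ φ) z = 0 := by
      simp only [sub_smul, Finset.sum_sub_distrib]
      rw [← hc, sub_self]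
    have := Fintype.linearIndependent_iff.mp hG (fun z => c z.1 z.2 - c₀ z) hzero
    funext i e
    exact sub_eq_zero.mp (this (i, e))

end LinAlg

section Card

variable (p : ℕ) [hpF : Fact p.Prime] {r : ℕ} (qv : Fin r → ℕ)

/-- `Δ_Q` is a finite `p`-group. -/
theorem card_delta_h779 (hprime : ∀ j, (qv j).Prime) :
    Nat.card (Delta p qv) = p ^ ∑ j, padicValNat p (qv j - 1) := by
  classical
  obtain ⟨g, hg⟩ := exists_primitive_roots qv hprime
  have hbij := epsIdx_bijective p qv hprime g hg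
  rw [← Nat.card_eq_of_bijective _ hbij, Nat.card_eq_fintype_card, Fintype.card_pi]
  simp only [Fintype.card_fin]
  exact Finset.prod_pow_eq_pow_sum _ _ _

end Card

section Generic

variable {p : ℕ} [hpF : Fact p.Prime] (N₀ : ℕ) {r : ℕ} (qv : Fin r → ℕ)
  {𝒪 : Type} [CommRing 𝒪] [IsDomain 𝒪] [IsDiscreteValuationRing 𝒪] [CharZero 𝒪]

/-- **FREE, generic form, all odd `p`.** -/
theorem free_of_isLocPart_h779 (hN₀ : N₀ ≠ 0) (hinj : Function.Injective qv)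
    (hprime : ∀ j, (qv j).Prime) (hp𝒪 : ¬ IsUnit (p : 𝒪))
    {Tset Uset : Set (ℕ × 𝒪)} {V : Submodule 𝒪 (Additive (KQ p N₀ qv) →+ 𝒪)}
    (hV : IsLocPart (isMid_KQ p N₀ qv) Tset Uset V)
    {ℓ : ℕ} (hℓ : ℓ.Prime) (hℓM : ¬ ℓ ∣ bLevel N₀ qv) {c : 𝒪} (hmem : (ℓ, c) ∈ Tset)
    (hu : IsUnit (c - ((ℓ : 𝒪) + 1)))
    (hcase : 5 ≤ p ∨ (p = 3 ∧ ∃ (r' : ℕ) (c' : 𝒪), r'.Prime ∧ ¬ r' ∣ bLevel N₀ qv ∧
      r' % 3 = 2 ∧ (r', c') ∈ Tset ∧ IsUnit c')) :
    ∃ d : ℕ, ∀ (E : Type) [Fintype E] (a : E → ∀ j : Fin r, (ZMod (qv j))ˣ),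
      Function.Bijective (fun e => (QuotientGroup.mk (a e) : Delta p qv)) →
      ∃ b : Fin d → V, ∀ y : V, ∃! c : Fin d → E → 𝒪,
        (y : Additive (KQ p N₀ qv) →+ 𝒪) =
          ∑ i, ∑ e, c i e • diamondU (isMid_KQ p N₀ qv) (liftU N₀ qv (a e))
            (b i : Additive (KQ p N₀ qv) →+ 𝒪) := by
  classical
  have hp : p.Prime := hpF.out
  have hM : NeZero (bLevel N₀ qv) :=
    ⟨Nat.mul_ne_zero hN₀ (Finset.prod_ne_zero_iff.mpr fun j _ => (hprime j).ne_zero)⟩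
  have : ∀ j, NeZero (qv j) := fun j => ⟨(hprime j).ne_zero⟩
  have : Fact ℓ.Prime := ⟨hℓ⟩
  have hred := red_surjective N₀ qv hN₀ hinj hprime
  have hκ := kappa_surjective_h762 p N₀ qv hred
  let _ : Fintype (Delta p qv) := Fintype.ofFinite _
  have hcardN := card_delta_h779 p qv hprime
  have hcard : ∃ a : ℕ, Fintype.card (Delta p qv) = p ^ a :=
    ⟨_, by rw [← Nat.card_eq_fintype_card]; exact hcardN⟩
  have hΓ1 := kappa_trivial_h762 p N₀ qv
  obtain ⟨e, he, heV, hVe, hT, -, hD, -⟩ := hV.exists_proj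
  obtain ⟨hsurj, hinj'⟩ := H31.locPart_TK_sub_bij_h31 hV hℓM hmem hu
  have hTK : ∀ (l : ℕ) [Fact l.Prime] (hl : ¬ l ∣ bLevel N₀ qv)
      (x : Additive (kerSub (kappa p N₀ qv)) →+ 𝒪),
      H587.heckeKerLin hl (kappa p N₀ qv) hΓ1 𝒪 x = TK (bLevel N₀ qv) (KQ p N₀ qv) l x :=
    fun l _ hl x => heckeKer_eq_TK hl (kappa p N₀ qv) hΓ1 x
  have hconj : ∀ (g : Gamma0 (bLevel N₀ qv)) (z : Additive (kerSub (kappa p N₀ qv)) →+ 𝒪),
      conjAct (kappa p N₀ qv) g z =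
        diamondU (isMid_KQ p N₀ qv) (dUnit (bLevel N₀ qv) g⁻¹) z := by
    intro g z
    rw [conjAct_eq_diamond (kappa p N₀ qv) hΓ1 g z, diamond_eq_diamondU]
    rfl
  have het : ∀ x, e (H587.heckeKerLin hℓM (kappa p N₀ qv) hΓ1 𝒪 x) =
      H587.heckeKerLin hℓM (kappa p N₀ qv) hΓ1 𝒪 (e x) := fun x =>
    (congrArg e (hTK ℓ hℓM x)).trans ((hT ℓ hℓM x).trans (hTK ℓ hℓM (e x)).symm)
  have hec : ∀ (g : Gamma0 (bLevel N₀ qv)) x,
      e (conjAct (kappa p N₀ qv) g x) = conjAct (kappa p N₀ qv) g (e x) := fun g x => by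
    have h1 := hconj g x
    have h2 := hconj g (e x)
    have h3 := hD (dUnit (bLevel N₀ qv) g⁻¹) x
    exact (congrArg e h1).trans (h3.trans h2.symm)
  have hsurj' : ∀ y : Additive (kerSub (kappa p N₀ qv)) →+ 𝒪, e y = y →
      ∃ x : Additive (kerSub (kappa p N₀ qv)) →+ 𝒪, e x = x ∧
      H587.heckeKerLin hℓM (kappa p N₀ qv) hΓ1 𝒪 x - ((ℓ : 𝒪) + 1) • x = y := fun y hy => by
    have hyV : y ∈ V := by rw [← hy]; exact heV y
    obtain ⟨x, hxV, hx⟩ := hsurj y hyV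
    refine ⟨x, hVe x hxV, ?_⟩
    rw [hTK ℓ hℓM x]
    exact hx
  have hinj'' : ∀ x : Additive (kerSub (kappa p N₀ qv)) →+ 𝒪, e x = x →
      H587.heckeKerLin hℓM (kappa p N₀ qv) hΓ1 𝒪 x - ((ℓ : 𝒪) + 1) • x = 0 → x = 0 :=
    fun x hx h0 => by
      have hxV : x ∈ V := by rw [← hx]; exact heV x
      rw [hTK ℓ hℓM x] at h0
      exact hinj' x hxV h0
  have hfc : FreeConclusion (kappa p N₀ qv) 𝒪 e := by
    rcases hcase with hp5 | ⟨hp3, r', c', hr', hr'M, hr'3, hmem', hc'⟩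
    · exact H779.freeFive_heckeKer_h779 p (bLevel N₀ qv) ℓ hp5 hℓM hM.ne (Delta p qv)
        (kappa p N₀ qv) hκ hcard hΓ1 𝒪 hp𝒪 e he het hec hsurj' hinj''
    · subst hp3
      have : Fact r'.Prime := ⟨hr'⟩
      have hu0 : IsUnit (c' - 0) := by rwa [sub_zero]
      obtain ⟨hsurjr, -⟩ := H31.locPart_TK_sub_bij_h31 hV hr'M hmem' hu0
      refine H779.freeAux3_heckeKer_h779 (bLevel N₀ qv) ℓ r' hℓM hr'M hr'3 hM.ne (Delta 3 qv)
        (kappa 3 N₀ qv) hκ hcard hΓ1 𝒪 (by simpa using hp𝒪) e he het hec hsurj' hinj''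
        (fun x => (congrArg e (hTK r' hr'M x)).trans
          ((hT r' hr'M x).trans (hTK r' hr'M (e x)).symm)) ?_
      intro y hy
      have hyV : y ∈ V := by rw [← hy]; exact heV y
      obtain ⟨x, hxV, hx⟩ := hsurjr y hyV
      rw [zero_smul, sub_zero] at hx
      exact ⟨x, hVe x hxV, (hTK r' hr'M x).trans hx⟩
  obtain ⟨⟨n, b, hb, hfree⟩, -, -⟩ := hfc
  refine ⟨n, fun E _ a ha => ?_⟩
  choose s hs using hκ
  obtain ⟨hli, hspan⟩ := hfree s hs
  refine ⟨fun i => ⟨b i, by rw [← hb i]; exact heV _⟩, fun y => ?_⟩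
  have hε : Function.Bijective
      (fun e' : E => ((QuotientGroup.mk (a e') : Delta p qv))⁻¹) :=
    (Equiv.inv (Delta p qv)).bijective.comp ha
  have key := existsUnique_coeff_h779
    (fun z : Delta p qv × Fin n => conjAct (kappa p N₀ qv) (s z.1) (b z.2)) hli
    (fun e' : E => ((QuotientGroup.mk (a e') : Delta p qv))⁻¹) hε
    (y : Additive (KQ p N₀ qv) →+ 𝒪) (hspan _ (hVe _ y.2))
  have hrew : ∀ (e' : E) (i : Fin n),
      conjAct (kappa p N₀ qv) (s ((QuotientGroup.mk (a e') : Delta p qv))⁻¹) (b i) =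
        diamondU (isMid_KQ p N₀ qv) (liftU N₀ qv (a e')) (b i) :=
    fun e' i => (diamondU_liftU_eq_conjAct_h762 p N₀ qv hred (a e') _ (hs _) (b i)).symm
  simp only [hrew] at key
  exact key

end Generic

end Fermat.Agent.S59.TW.Aut.H779
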